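import Mathlib
import Fermat.Agent.MU.S17.H.Global
import Fermat.Agent.MU.S17.RR.Genus0
import Fermat.Agent.MU.Lib.RR.OfModularBar

section MergeWrap_S17_Assembly -- from S17/Assembly.lean

set_option autoImplicit false

/-!
# S17: the final assembly, conditional on the package theorems

`fg_of_packages` : `WeakMW N` + (for genus `≥ 1`) an `HSetup N` with the three global Props
implies that `MW N` is finitely generated.  Genus `0` is unconditional (`Pic⁰` is trivial).
-/

noncomputable section

open ModularCurve AlgebraicCurve

namespace Fermat.Agent.S17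

variable (N : ℕ) [NeZero N]

/-- genus `0`: the Mordell-Weil group is trivial, hence finitely generated. -/
theorem fg_of_genus_zero (hg : genusFF Qbar (FN N) = 0) : AddGroup.FG (MW N) := by
  have hsub : Subsingleton (JZero N) :=
    subsingleton_pic0_of_genus_zero (Fermat.Agent.RRMod.isRRField_bar N) hg
  have hsub' : Subsingleton (MW N) := ⟨fun x y => Subtype.ext (Subsingleton.elim _ _)⟩
  have hfin : Finite (MW N) := Finite.of_subsingleton
  exact AddGroup.fg_of_finite

/-- **S17 from the packages.** -/
theorem fg_of_packages (hW : 1 ≤ genusFF Qbar (FN N) → WeakMW N)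
    (hH : 1 ≤ genusFF Qbar (FN N) →
      ∃ S : HSetup N, PairingThm S ∧ PositivityThm S ∧ NorthcottThm S) :
    AddGroup.FG (MW N) := by
  by_cases hg : genusFF Qbar (FN N) = 0
  · exact fg_of_genus_zero N hg
  · have hg1 : 1 ≤ genusFF Qbar (FN N) := Nat.one_le_iff_ne_zero.mpr hg
    obtain ⟨S, hP, hPos, hN⟩ := hH hg1
    exact fg_of_weakMW_of_heightThm N (hW hg1) (heightThm_of_setup S hP hPos hN)

end Fermat.Agent.S17
end
end MergeWrap_S17_Assembly
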